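/-
Row S33 (ordinary at `p ‖ N`), piece EIG, pure algebra, field level (helper692).

`G` a group, `I` a set of elements of `G` (the inertia group), `F` a field.

* `augSub I π` : the augmentation submodule `I_aug M = ⟨σ x - x : σ ∈ I⟩` of a module with action.
* `augSub_eq_top_of_algHom` : if `Ψ : End W → End V` is an algebra map with `Ψ (ρ g) = π g`
  (Boston–Lenstra–Ribet) and `I_aug W = W`, then `I_aug V = V`.
* `augSub_ne_top_of_line` : if `dim W = 2`, `V ≠ 0` and `(σ - 1) W ⊆ L ≠ W` for all `σ ∈ I`, then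
  `I_aug V ≠ V`.
* `ord_identities_of_augSub_ne_top` : if `dim W = 2` and `I_aug W ≠ W` then, for `σ₀, σ ∈ I` and
  `τ` normalising `I`,  `(σ₀ - det σ₀)(σ - 1) = 0` and `(σ₀ - det σ₀) τ (σ₀ - 1) = 0` on `W`.
-/
import Mathlib
import Fermat.Agent.Lib.Ribet.H223.BLRCore

set_option autoImplicit false

noncomputable section

namespace Fermat.Agent.S33.H692

open Module

section Aug

variable {A : Type*} [CommRing A] {M : Type*} [AddCommGroup M] [Module A M]
  {G : Type*} [Group G]

/-- The augmentation submodule `I_aug M`: the span of all `σ x - x`, `σ ∈ I`. -/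
def augSub (I : Set G) (π : G →* Module.End A M) : Submodule A M :=
  Submodule.span A {y | ∃ σ ∈ I, ∃ x, y = π σ x - x}

theorem sub_mem_augSub {I : Set G} (π : G →* Module.End A M) {σ : G} (hσ : σ ∈ I) (x : M) :
    π σ x - x ∈ augSub I π :=
  Submodule.subset_span ⟨σ, hσ, x, rfl⟩

theorem augSub_le_iff {I : Set G} (π : G →* Module.End A M) (N : Submodule A M) :
    augSub I π ≤ N ↔ ∀ σ ∈ I, ∀ x, π σ x - x ∈ N := by
  constructor
  · intro h σ hσ x
    exact h (sub_mem_augSub π hσ x)
  · intro h
    refine Submodule.span_le.mpr ?_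
    rintro y ⟨σ, hσ, x, rfl⟩
    exact h σ hσ x

/-- `I_aug M` is stable under every `τ` normalising `I`. -/
theorem map_mem_augSub {I : Set G} (π : G →* Module.End A M) {τ : G}
    (hτ : ∀ σ ∈ I, τ * σ * τ⁻¹ ∈ I) {y : M} (hy : y ∈ augSub I π) : π τ y ∈ augSub I π := by
  induction hy using Submodule.span_induction with
  | mem y hy =>
    obtain ⟨σ, hσ, x, rfl⟩ := hy
    have e : π τ (π σ x - x) = π (τ * σ * τ⁻¹) (π τ x) - π τ x := by
      rw [map_sub, ← Module.End.mul_apply, ← Module.End.mul_apply, ← map_mul, ← map_mul,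
        inv_mul_cancel_right]
    rw [e]
    exact sub_mem_augSub π (hτ σ hσ) _
  | zero =>
    rw [map_zero]
    exact zero_mem _
  | add x y _ _ hx hy =>
    rw [map_add]
    exact add_mem hx hy
  | smul a x _ hx =>
    rw [map_smul]
    exact Submodule.smul_mem _ _ hx

/-- `I_aug M` is stable under `I`. -/
theorem map_mem_augSub_self {I : Set G} (π : G →* Module.End A M) {σ : G} (hσ : σ ∈ I) {y : M}
    (hy : y ∈ augSub I π) : π σ y ∈ augSub I π := by
  have := add_mem (sub_mem_augSub π hσ y) hy
  rwa [sub_add_cancel] at this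

end Aug

section Field

variable {F : Type*} [Field F] {G : Type*} [Group G]
  {W V : Type*} [AddCommGroup W] [Module F W] [AddCommGroup V] [Module F V]

/-- Rank-one endomorphisms with values in `I_aug W` lie in the right ideal generated by the
`ρ σ - 1`, `σ ∈ I`. -/
theorem smulRight_mem_span (ρ : G →* Module.End F W) (I : Set G) (l : W →ₗ[F] F) {w : W}
    (hw : w ∈ augSub I ρ) :
    l.smulRight w ∈ Submodule.span F {X : Module.End F W | ∃ σ ∈ I, ∃ Y, X = (ρ σ - 1) * Y} := by
  induction hw using Submodule.span_induction with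
  | mem y hy =>
    obtain ⟨σ, hσ, x, rfl⟩ := hy
    refine Submodule.subset_span ⟨σ, hσ, l.smulRight x, ?_⟩
    ext z
    simp only [LinearMap.smulRight_apply, Module.End.mul_apply, LinearMap.sub_apply,
      Module.End.one_apply, map_smul, smul_sub]
  | zero =>
    have : l.smulRight (0 : W) = 0 := by
      ext z
      simp
    rw [this]
    exact zero_mem _
  | add x y _ _ hx hy =>
    have : l.smulRight (x + y) = l.smulRight x + l.smulRight y := by
      ext z
      simp
    rw [this]
    exact add_mem hx hy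
  | smul a x _ hx =>
    have : l.smulRight (a • x) = a • l.smulRight x := by
      ext z
      simp only [LinearMap.smulRight_apply, LinearMap.smul_apply]
      exact smul_comm _ _ _
    rw [this]
    exact Submodule.smul_mem _ _ hx

/-- If `I_aug W = W` then `1` lies in the right ideal generated by the `ρ σ - 1`, `σ ∈ I`. -/
theorem one_mem_span_of_augSub_eq_top [Module.Finite F W] (ρ : G →* Module.End F W) (I : Set G)
    (h : augSub I ρ = ⊤) :
    (1 : Module.End F W) ∈
      Submodule.span F {X : Module.End F W | ∃ σ ∈ I, ∃ Y, X = (ρ σ - 1) * Y} := by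
  classical
  let b := Module.Free.chooseBasis F W
  have h1 : (1 : Module.End F W) = ∑ i, (b.coord i).smulRight (b i) := by
    ext z
    simp only [Module.End.one_apply, LinearMap.coe_sum, Finset.sum_apply,
      LinearMap.smulRight_apply, Module.Basis.coord_apply]
    exact (b.sum_repr z).symm
  have hsum : ∑ i, (b.coord i).smulRight (b i) ∈
      Submodule.span F {X : Module.End F W | ∃ σ ∈ I, ∃ Y, X = (ρ σ - 1) * Y} := by
    refine Submodule.sum_mem _ fun i _ => smulRight_mem_span ρ I _ ?_
    rw [h]
    exact Submodule.mem_top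
  rwa [← h1] at hsum

/-- **Transfer of vanishing coinvariants.** -/
theorem augSub_eq_top_of_algHom [Module.Finite F W] (ρ : G →* Module.End F W)
    (π : G →* Module.End F V) (Ψ : Module.End F W →ₐ[F] Module.End F V)
    (hΨ : ∀ g, Ψ (ρ g) = π g) (I : Set G) (h : augSub I ρ = ⊤) : augSub I π = ⊤ := by
  have key : ∀ X ∈ Submodule.span F {X : Module.End F W | ∃ σ ∈ I, ∃ Y, X = (ρ σ - 1) * Y},
      ∀ v : V, Ψ X v ∈ augSub I π := by
    intro X hX
    induction hX using Submodule.span_induction with
    | mem X hX =>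
      obtain ⟨σ, hσ, Y, rfl⟩ := hX
      intro v
      rw [map_mul, map_sub, map_one, hΨ, Module.End.mul_apply, LinearMap.sub_apply,
        Module.End.one_apply]
      exact sub_mem_augSub π hσ _
    | zero =>
      intro v
      rw [map_zero]
      exact zero_mem _
    | add x y _ _ hx hy =>
      intro v
      rw [map_add]
      exact add_mem (hx v) (hy v)
    | smul a x _ hx =>
      intro v
      rw [map_smul]
      exact Submodule.smul_mem _ _ (hx v)
  rw [eq_top_iff]
  intro v _
  have := key 1 (one_mem_span_of_augSub_eq_top ρ I h) v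
  rwa [map_one] at this

/-- The endomorphism ring of a two-dimensional space is simple. -/
theorem isSimpleRing_end (h2 : Module.finrank F W = 2) : IsSimpleRing (Module.End F W) := by
  have : Module.Finite F W := Module.finite_of_finrank_eq_succ h2
  let b : Module.Basis (Fin 2) F W := Module.finBasisOfFinrankEq F W h2
  exact IsSimpleRing.of_ringEquiv (LinearMap.toMatrixAlgEquiv b).symm.toRingEquiv inferInstance

/-- **Non-vanishing of coinvariants from a line.** -/
theorem augSub_ne_top_of_line (h2 : Module.finrank F W = 2) (ρ : G →* Module.End F W)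
    (π : G →* Module.End F V) (Ψ : Module.End F W →ₐ[F] Module.End F V)
    (hΨ : ∀ g, Ψ (ρ g) = π g) [Nontrivial V] (I : Set G) (L : Submodule F W) (hL : L ≠ ⊤)
    (hI : ∀ σ ∈ I, ∀ x, ρ σ x - x ∈ L) : augSub I π ≠ ⊤ := by
  have hfin : Module.Finite F W := Module.finite_of_finrank_eq_succ h2
  have hntW : Nontrivial W := Module.nontrivial_of_finrank_pos (R := F) (by omega)
  obtain ⟨l, hl0, hl⟩ := Submodule.exists_le_ker_of_lt_top L (lt_top_iff_ne_top.mpr hL)
  obtain ⟨w₀, hw₀⟩ := exists_ne (0 : W)
  have hf0 : l.smulRight w₀ ≠ 0 := by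
    intro h0
    apply hl0
    ext z
    have := congrArg (fun E : Module.End F W => E z) h0
    simp only [LinearMap.smulRight_apply, LinearMap.zero_apply, smul_eq_zero] at this
    rcases this with h | h
    · exact h
    · exact (hw₀ h).elim
  have hsimple := isSimpleRing_end h2
  have hinj : Function.Injective Ψ := (Ψ : Module.End F W →+* Module.End F V).injective
  have hΨf : Ψ (l.smulRight w₀) ≠ 0 := by
    intro h0
    apply hf0
    apply hinj
    rw [h0, map_zero]
  intro htop
  apply hΨf
  ext v
  have hv : v ∈ augSub I π := by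
    rw [htop]
    exact Submodule.mem_top
  rw [LinearMap.zero_apply]
  induction hv using Submodule.span_induction with
  | mem y hy =>
    obtain ⟨σ, hσ, x, rfl⟩ := hy
    have e : l.smulRight w₀ * (ρ σ - 1) = 0 := by
      ext z
      simp only [Module.End.mul_apply, LinearMap.sub_apply, Module.End.one_apply,
        LinearMap.smulRight_apply, LinearMap.zero_apply]
      have : l (ρ σ z - z) = 0 := LinearMap.mem_ker.mp (hl (hI σ hσ z))
      rw [this, zero_smul]
    have e2 := congrArg Ψ e
    rw [map_mul, map_sub, map_one, hΨ, map_zero] at e2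
    have e3 := congrArg (fun E : Module.End F V => E x) e2
    simpa only [Module.End.mul_apply, LinearMap.sub_apply, Module.End.one_apply,
      LinearMap.zero_apply] using e3
  | zero => rw [map_zero]
  | add x y _ _ hx hy => rw [map_add, hx, hy, add_zero]
  | smul a x _ hx => rw [map_smul, hx, smul_zero]

/-- **The line lemma.**  If `dim W = 2` and `I_aug W ≠ W`, then every `σ₀ ∈ I` acts on `I_aug W`
through the scalar `det σ₀`. -/
theorem apply_eq_det_smul_of_mem_augSub (h2 : Module.finrank F W = 2) (ρ : G →* Module.End F W)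
    (I : Set G) (hne : augSub I ρ ≠ ⊤) {σ₀ : G} (hσ₀ : σ₀ ∈ I) {y : W} (hy : y ∈ augSub I ρ) :
    ρ σ₀ y = LinearMap.det (ρ σ₀) • y := by
  have hfin : Module.Finite F W := Module.finite_of_finrank_eq_succ h2
  have hlt : Module.finrank F (augSub I ρ) < 2 := by
    rw [← h2]
    exact Submodule.finrank_lt hne
  have h01 : Module.finrank F (augSub I ρ) = 0 ∨ Module.finrank F (augSub I ρ) = 1 := by omega
  rcases h01 with h0 | h1
  · have hbot : augSub I ρ = ⊥ := Submodule.finrank_eq_zero.mp h0
    rw [hbot, Submodule.mem_bot] at hy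
    rw [hy, map_zero, smul_zero]
  · obtain ⟨⟨w, hwW⟩, hw0, hsp⟩ := finrank_eq_one_iff'.mp h1
    have hw0' : w ≠ 0 := fun h => hw0 (Subtype.ext h)
    have hspan : ∀ z ∈ augSub I ρ, ∃ c : F, c • w = z := by
      intro z hz
      obtain ⟨c, hc⟩ := hsp ⟨z, hz⟩
      exact ⟨c, congrArg Subtype.val hc⟩
    obtain ⟨u, hu⟩ : ∃ u, u ∉ augSub I ρ := by
      by_contra hcon
      push Not at hcon
      exact hne (eq_top_iff.mpr fun x _ => hcon x)
    obtain ⟨χ, hχ⟩ := hspan _ (map_mem_augSub_self ρ hσ₀ hwW)
    obtain ⟨a, ha⟩ := hspan _ (sub_mem_augSub ρ hσ₀ u)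
    have hli : LinearIndependent F ![w, u] := by
      rw [LinearIndependent.pair_iff]
      intro s t hst
      have ht : t = 0 := by
        by_contra ht
        apply hu
        have : u = (-(t⁻¹ * s)) • w := by
          have h1 : t • u = -(s • w) := by
            rw [eq_neg_iff_add_eq_zero, add_comm]
            exact hst
          calc u = t⁻¹ • (t • u) := by rw [smul_smul, inv_mul_cancel₀ ht, one_smul]
            _ = (-(t⁻¹ * s)) • w := by rw [h1, smul_neg, smul_smul, neg_smul]
        rw [this]
        exact Submodule.smul_mem _ _ hwW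
      refine ⟨?_, ht⟩
      rw [ht, zero_smul, add_zero] at hst
      exact (smul_eq_zero.mp hst).resolve_right hw0'
    let b : Module.Basis (Fin 2) F W :=
      basisOfLinearIndependentOfCardEqFinrank hli (by simp [h2])
    have hb0 : b 0 = w := by simp [b]
    have hb1 : b 1 = u := by simp [b]
    have e0 : ρ σ₀ (b 0) = χ • b 0 := by rw [hb0, hχ]
    have e1 : ρ σ₀ (b 1) = b 1 + a • b 0 := by
      rw [hb0, hb1, ha]
      abel
    have hdet : LinearMap.det (ρ σ₀) = χ := by
      rw [← LinearMap.det_toMatrix b, Matrix.det_fin_two]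
      simp only [LinearMap.toMatrix_apply, e0, e1, map_add, map_smul, Module.Basis.repr_self,
        Finsupp.add_apply, Finsupp.smul_apply, Finsupp.single_apply]
      simp
    obtain ⟨c, rfl⟩ := hspan y hy
    rw [map_smul, ← hχ, hdet, smul_comm]

/-- **Identity (O2).** -/
theorem ord_identity_two (h2 : Module.finrank F W = 2) (ρ : G →* Module.End F W)
    (I : Set G) (hne : augSub I ρ ≠ ⊤) {σ₀ σ : G} (hσ₀ : σ₀ ∈ I) (hσ : σ ∈ I) :
    (ρ σ₀ - LinearMap.det (ρ σ₀) • (1 : Module.End F W)) * (ρ σ - 1) = 0 := by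
  ext x
  have h := apply_eq_det_smul_of_mem_augSub h2 ρ I hne hσ₀ (sub_mem_augSub ρ hσ x)
  simp only [Module.End.mul_apply, LinearMap.sub_apply, Module.End.one_apply,
    LinearMap.smul_apply, LinearMap.zero_apply]
  rw [sub_eq_zero]
  exact h

/-- **Identity (O3).** -/
theorem ord_identity_three (h2 : Module.finrank F W = 2) (ρ : G →* Module.End F W)
    (I : Set G) (hne : augSub I ρ ≠ ⊤) {σ₀ τ : G} (hσ₀ : σ₀ ∈ I)
    (hτ : ∀ σ ∈ I, τ * σ * τ⁻¹ ∈ I) :
    (ρ σ₀ - LinearMap.det (ρ σ₀) • (1 : Module.End F W)) * ρ τ * (ρ σ₀ - 1) = 0 := by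
  ext x
  have h := apply_eq_det_smul_of_mem_augSub h2 ρ I hne hσ₀
    (map_mem_augSub ρ hτ (sub_mem_augSub ρ hσ₀ x))
  simp only [Module.End.mul_apply, LinearMap.sub_apply, Module.End.one_apply,
    LinearMap.smul_apply, LinearMap.zero_apply]
  rw [sub_eq_zero]
  exact h

end Field

end Fermat.Agent.S33.H692
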