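/-
Row S33 (ordinary at `p ‖ N`), piece EIG, pure algebra: specialisation to a field (helper692).

`ρ : G → End_T V` (`V` free of rank two with basis `b`, `T[G] → End_T V` onto), `ψ : T → O`,
`ρM : G → End_O M` (`M` free with basis `c`) satisfying the quadratic relations of `ρ` along `ψ`.
For a ring homomorphism `ι : O → F` into a field with `2 ≠ 0` the coordinate specialisations
`specRep (ι ∘ ψ) b ρ` on `F²` and `specRep ι c ρM` on `Fⁿ` are related by a Boston–Lenstra–Ribet
algebra homomorphism `Ψ : End (F²) → End (Fⁿ)`.
-/
import Mathlib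
import Fermat.Agent.Lib.Ribet.H223.BLRCore
import Fermat.Agent.S32.H152.EmbCoord
import Fermat.Agent.S33.H692.OrdAlgField

set_option autoImplicit false
set_option linter.unusedSectionVars false

noncomputable section

namespace Fermat.Agent.S33.H692

open Module Fermat.Agent.S32.H152 Fermat.Agent.Lib.Ribet.H223

section Coord

variable {R : Type*} [CommRing R] {F : Type*} [Field F] (f : R →+* F) {m : Type*} [Fintype m]
  [DecidableEq m] {X : Type*} [AddCommGroup X] [Module R X] (e : Module.Basis m R X)
  {G : Type*} [Group G]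

/-- The specialisation of an action, in coordinates. -/
def specRep (r : G →* Module.End R X) : G →* Module.End F (m → F) :=
  ((embEnd f e : Module.End R X →+* _) : Module.End R X →* _).comp r

theorem specRep_apply (r : G →* Module.End R X) (g : G) :
    specRep f e r g = embEnd f e (r g) := rfl

theorem embEnd_det (E : Module.End R X) :
    LinearMap.det (embEnd f e E) = f (LinearMap.det E) := by
  rw [embEnd_eq, LinearMap.det_toLin', ← LinearMap.det_toMatrix e]
  exact (RingHom.map_det f _).symm

theorem embEnd_injective (hf : Function.Injective f) : Function.Injective (embEnd f e) := by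
  rw [injective_iff_map_eq_zero]
  intro E hE
  rw [embEnd_eq] at hE
  have h1 : (LinearMap.toMatrix e e E).map f = 0 := by
    apply Matrix.toLin'.injective
    rw [hE, map_zero]
  have h2 : LinearMap.toMatrix e e E = 0 := by
    ext i j
    apply hf
    have := congrFun (congrFun h1 i) j
    rw [Matrix.map_apply] at this
    rw [this, Matrix.zero_apply, Matrix.zero_apply, map_zero]
  exact (LinearMap.toMatrix e e).injective (by rw [h2, map_zero])

/-- The coordinate map sends `I_aug` into `I_aug`. -/
theorem embCoord_mem_augSub (r : G →* Module.End R X) (I : Set G) {y : X}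
    (hy : y ∈ augSub I r) : embCoord f e y ∈ augSub I (specRep f e r) := by
  induction hy using Submodule.span_induction with
  | mem y hy =>
    obtain ⟨σ, hσ, x, rfl⟩ := hy
    rw [map_sub, ← embEnd_coord, ← specRep_apply]
    exact sub_mem_augSub _ hσ _
  | zero =>
    rw [map_zero]
    exact zero_mem _
  | add x y _ _ hx hy =>
    rw [map_add]
    exact add_mem hx hy
  | smul a x _ hx =>
    rw [embCoord_smul]
    exact Submodule.smul_mem _ _ hx

/-- A vector with coordinates in the image of `f` is a coordinate vector. -/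
theorem exists_embCoord_eq (x : m → F) (hx : ∀ j, ∃ a : R, f a = x j) :
    ∃ v : X, embCoord f e v = x := by
  choose a ha using hx
  refine ⟨∑ j, a j • e j, ?_⟩
  funext j
  rw [embCoord_apply]
  simp only [map_sum, map_smul, Module.Basis.repr_self, Finsupp.coe_finsetSum, Finset.sum_apply,
    Finsupp.smul_apply, Finsupp.single_apply, smul_eq_mul, mul_ite, mul_one, mul_zero,
    Finset.sum_ite_eq', Finset.mem_univ, if_true]
  exact ha j

end Coord

section Spec

variable {T : Type*} [CommRing T] {G : Type*} [Group G]
  {V : Type*} [AddCommGroup V] [Module T V] (b : Module.Basis (Fin 2) T V)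
  (ρ : G →* Module.End T V)
  {O : Type*} [CommRing O] (ψ : T →+* O)
  {M : Type*} [AddCommGroup M] [Module O M] {n : Type*} [Fintype n] [DecidableEq n]
  (c : Module.Basis n O M) (ρM : G →* Module.End O M)
  {F : Type*} [Field F] (ι : O →+* F)

/-- `F[G] → End (F²)` is onto when `T[G] → End_T V` is. -/
theorem spec_surjective (hspan : Submodule.span T (Set.range ρ) = ⊤) (f : T →+* F) :
    Function.Surjective
      (MonoidAlgebra.lift F (Module.End F (Fin 2 → F)) G (specRep f b ρ)) := by
  set A₀ := (MonoidAlgebra.lift F (Module.End F (Fin 2 → F)) G (specRep f b ρ)).range with hA₀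
  have hg : ∀ g, specRep f b ρ g ∈ A₀ := fun g =>
    ⟨MonoidAlgebra.of F G g, MonoidAlgebra.lift_of _ _⟩
  have hall : ∀ E : Module.End T V, embEnd f b E ∈ A₀ := by
    intro E
    have hE : E ∈ Submodule.span T (Set.range ρ) := by
      rw [hspan]
      exact Submodule.mem_top
    induction hE using Submodule.span_induction with
    | mem x hx =>
      obtain ⟨g, rfl⟩ := hx
      exact hg g
    | zero =>
      rw [map_zero]
      exact zero_mem _
    | add x y _ _ hx hy =>
      rw [map_add]
      exact add_mem hx hy
    | smul t x _ hx =>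
      rw [embEnd_smul]
      exact Subalgebra.smul_mem _ hx _
  intro y
  have hy : y ∈ A₀ := by
    obtain ⟨Y, rfl⟩ := (Matrix.toLinAlgEquiv' : Matrix (Fin 2) (Fin 2) F ≃ₐ[F] _).surjective y
    rw [Matrix.matrix_eq_sum_single Y]
    simp only [map_sum]
    refine Subalgebra.sum_mem _ fun i _ => Subalgebra.sum_mem _ fun j _ => ?_
    have e1 : (Matrix.single i j (Y i j) : Matrix (Fin 2) (Fin 2) F)
        = Y i j • Matrix.single i j (1 : F) := by
      rw [Matrix.smul_single, smul_eq_mul, mul_one]
    rw [e1, map_smul]
    refine Subalgebra.smul_mem _ ?_ _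
    have e2 := embEnd_single f b i j
    have e3 : (Matrix.toLinAlgEquiv' : Matrix (Fin 2) (Fin 2) F ≃ₐ[F] _)
        (Matrix.single i j (1 : F)) = Matrix.toLin' (Matrix.single i j (1 : F)) := rfl
    rw [e3, ← e2]
    exact hall _
  exact hy

/-- **Boston–Lenstra–Ribet for the specialisations.** -/
theorem exists_spec_algHom (hspan : Submodule.span T (Set.range ρ) = ⊤)
    (hrel : ∀ g : G, ρM g * ρM g - ψ (LinearMap.trace T V (ρ g)) • ρM g
      + ψ (LinearMap.det (ρ g)) • (1 : Module.End O M) = 0)
    (h2F : (2 : F) ≠ 0) :
    ∃ Ψ : Module.End F (Fin 2 → F) →ₐ[F] Module.End F (n → F),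
      ∀ g, Ψ (specRep (ι.comp ψ) b ρ g) = specRep ι c ρM g := by
  set f : T →+* F := ι.comp ψ with hf
  set d : G →* F := ((f : T →* F).comp (LinearMap.det : Module.End T V →* T)).comp ρ with hd
  have hdg : ∀ g, d g = f (LinearMap.det (ρ g)) := fun g => rfl
  have hfin2 : Module.finrank F (Fin 2 → F) = 2 := by simp
  have hπ : ∀ g, specRep ι c ρM g * specRep ι c ρM g
      - LinearMap.trace F (Fin 2 → F) (specRep f b ρ g) • specRep ι c ρM g + d g • 1 = 0 := by
    intro g
    have h := congrArg (embEnd ι c) (hrel g)
    rw [map_zero, map_add, map_sub, map_mul, embEnd_smul, embEnd_smul, map_one] at h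
    rw [specRep_apply, specRep_apply, embEnd_trace, hdg]
    exact h
  obtain ⟨Ψ, -, hΨ⟩ := blr_exists_algHom h2F (specRep f b ρ) (specRep ι c ρM) d
    (LinearMap.trace F (Fin 2 → F)) hπ (spec_surjective b ρ hspan f)
    (exists_commutator_sq_eq_one hfin2)
  exact ⟨Ψ, hΨ⟩

end Spec

end Fermat.Agent.S33.H692
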