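/-
Row S33 (ordinary at `p ‖ N`), piece EIG, pure algebra (helper692).

Setting: `ρ : G → End_T V`, `V` free of rank two with basis `b`, `T[G] → End_T V` onto;
`ψ : T → O` a ring homomorphism into a local domain `O` in which `2` is a unit;
`ρM : G → End_O M`, `M` free with finite nonempty basis `c`, such that every `g` satisfies on `M`
the characteristic polynomial of `ρ g` specialised along `ψ` (shape of `S32.RelStatement`);
`I` a set of elements of `G` (the inertia subgroup), `I_aug M = augSub I ρM`.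

* `augSub_sup_ne_top` (residual part): if some functional `l` on `V`, not zero modulo `ψ⁻¹ 𝔪`,
  kills all `σ v - v` (`σ ∈ I`) modulo `ψ⁻¹ 𝔪` (a residual ordinary line), then
  `I_aug M + 𝔪 M ≠ M`.
* `exists_smul_mem_augSub` : if `I_aug (M ⊗ K) = M ⊗ K` then `a M ⊆ I_aug M` for some `a ≠ 0`.
* `ord_identities_of_not_exists` (generic part): if no `a ≠ 0` has `a M ⊆ I_aug M`, then for
  `σ₀, σ ∈ I` and `τ` normalising `I`, with `d₀ = ψ (det ρ σ₀)`:
  `(ρM σ₀ - d₀)(ρM σ - 1) = 0` and `(ρM σ₀ - d₀) ρM τ (ρM σ₀ - 1) = 0`.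
* `ordEig_of_geo` : the two identities from the residual line and the geometric input
  `GEO : a ≠ 0, a M ⊆ I_aug M ⟹ I_aug M + 𝔪 M = M`.
-/
import Mathlib
import Fermat.Agent.S33.H692.OrdAlgSpec

set_option autoImplicit false
set_option linter.unusedSectionVars false

noncomputable section

namespace Fermat.Agent.S33.H692

open Module IsLocalRing Fermat.Agent.S32.H152 Fermat.Agent.Lib.Ribet.H223

section Residual

variable {T : Type*} [CommRing T] {G : Type*} [Group G]
  {V : Type*} [AddCommGroup V] [Module T V] (b : Module.Basis (Fin 2) T V)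
  (ρ : G →* Module.End T V)
  {O : Type*} [CommRing O] [IsLocalRing O] (ψ : T →+* O)
  {M : Type*} [AddCommGroup M] [Module O M] {n : Type*} [Fintype n] [DecidableEq n]
  (c : Module.Basis n O M) (ρM : G →* Module.End O M)

include b c in
/-- **Residual part.**  A residual ordinary line forces `I_aug M + 𝔪 M ≠ M`. -/
theorem augSub_sup_ne_top [Nonempty n] (hspan : Submodule.span T (Set.range ρ) = ⊤)
    (hrel : ∀ g : G, ρM g * ρM g - ψ (LinearMap.trace T V (ρ g)) • ρM g
      + ψ (LinearMap.det (ρ g)) • (1 : Module.End O M) = 0)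
    (h2 : IsUnit (2 : O)) (I : Set G) (l : V →ₗ[T] T) (hl1 : ∃ v, IsUnit (ψ (l v)))
    (hl2 : ∀ σ ∈ I, ∀ v, ψ (l (ρ σ v - v)) ∈ maximalIdeal O) :
    augSub I ρM ⊔ (maximalIdeal O) • (⊤ : Submodule O M) ≠ ⊤ := by
  classical
  set k := ResidueField O with hk
  set ι : O →+* k := residue O with hι
  set f : T →+* k := ι.comp ψ with hf
  have h2F : (2 : k) ≠ 0 := by
    have h := (residue_ne_zero_iff_isUnit (2 : O)).mpr h2
    rwa [map_ofNat] at h
  obtain ⟨Ψ, hΨ⟩ := exists_spec_algHom b ρ ψ c ρM ι hspan hrel h2F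
  -- the functional
  set Λ : (Fin 2 → k) →ₗ[k] k := ∑ i, f (l (b i)) • LinearMap.proj i with hΛ
  have hΛapp : ∀ x : Fin 2 → k, Λ x = ∑ i, f (l (b i)) * x i := by
    intro x
    simp [hΛ]
  have hΛcoord : ∀ v : V, Λ (embCoord f b v) = f (l v) := by
    intro v
    rw [hΛapp]
    conv_rhs => rw [← b.sum_repr v]
    simp only [map_sum, map_smul, smul_eq_mul, map_mul, embCoord_apply]
    exact Finset.sum_congr rfl fun i _ => mul_comm _ _
  have hfin2 : Module.finrank k (Fin 2 → k) = 2 := by simp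
  have hL : LinearMap.ker Λ ≠ ⊤ := by
    obtain ⟨v, hv⟩ := hl1
    intro htop
    have h0 : Λ (embCoord f b v) = 0 := by
      have : embCoord f b v ∈ LinearMap.ker Λ := by
        rw [htop]
        exact Submodule.mem_top
      exact LinearMap.mem_ker.mp this
    rw [hΛcoord] at h0
    exact (residue_ne_zero_iff_isUnit _).mpr hv h0
  have hI : ∀ σ ∈ I, ∀ x, specRep f b ρ σ x - x ∈ LinearMap.ker Λ := by
    intro σ hσ x
    have hz : Λ ∘ₗ (specRep f b ρ σ - 1) = 0 := by
      refine (Pi.basisFun k (Fin 2)).ext fun i => ?_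
      rw [Pi.basisFun_apply, ← embCoord_basis f b i, LinearMap.comp_apply, LinearMap.sub_apply,
        Module.End.one_apply, specRep_apply, embEnd_coord, ← map_sub, hΛcoord,
        LinearMap.zero_apply]
      exact (residue_eq_zero_iff _).mpr (hl2 σ hσ (b i))
    have := congrArg (fun E : (Fin 2 → k) →ₗ[k] k => E x) hz
    rw [LinearMap.mem_ker]
    simpa only [LinearMap.comp_apply, LinearMap.sub_apply, Module.End.one_apply,
      LinearMap.zero_apply] using this
  have hne := augSub_ne_top_of_line hfin2 (specRep f b ρ) (specRep ι c ρM) Ψ hΨ I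
    (LinearMap.ker Λ) hL hI
  intro htop
  apply hne
  rw [eq_top_iff]
  intro x _
  obtain ⟨m, rfl⟩ := exists_embCoord_eq ι c x fun j => residue_surjective (x j)
  have hm : m ∈ augSub I ρM ⊔ (maximalIdeal O) • (⊤ : Submodule O M) := by
    rw [htop]
    exact Submodule.mem_top
  obtain ⟨y, hy, z, hz, rfl⟩ := Submodule.mem_sup.mp hm
  have hz0 : embCoord ι c z = 0 := by
    funext j
    rw [embCoord_apply]
    exact (residue_eq_zero_iff _).mpr (embCoord_repr_mem c _ hz j)
  rw [map_add, hz0, add_zero]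
  exact embCoord_mem_augSub ι c ρM I hy

end Residual

section Generic

variable {T : Type*} [CommRing T] {G : Type*} [Group G]
  {V : Type*} [AddCommGroup V] [Module T V] (b : Module.Basis (Fin 2) T V)
  (ρ : G →* Module.End T V)
  {O : Type*} [CommRing O] [IsDomain O] (ψ : T →+* O)
  {M : Type*} [AddCommGroup M] [Module O M] {n : Type*} [Fintype n] [DecidableEq n]
  (c : Module.Basis n O M) (ρM : G →* Module.End O M)
  (K : Type*) [Field K] [Algebra O K] [IsFractionRing O K]

/-- Clearing denominators in `I_aug`. -/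
theorem exists_embCoord_eq_smul (I : Set G) {y : n → K}
    (hy : y ∈ augSub I (specRep (algebraMap O K) c ρM)) :
    ∃ a : O, a ≠ 0 ∧ ∃ m ∈ augSub I ρM, embCoord (algebraMap O K) c m = algebraMap O K a • y := by
  classical
  set ι : O →+* K := algebraMap O K with hι
  induction hy using Submodule.span_induction with
  | mem y hy =>
    obtain ⟨σ, hσ, x, rfl⟩ := hy
    obtain ⟨a, ha⟩ := IsLocalization.exist_integer_multiples_of_finite (nonZeroDivisors O) x
    have hx : ∀ j, ∃ r : O, ι r = (ι a • x) j := by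
      intro j
      obtain ⟨r, hr⟩ := ha j
      refine ⟨r, ?_⟩
      rw [hr, Pi.smul_apply, Algebra.smul_def, smul_eq_mul]
    obtain ⟨x', hx'⟩ := exists_embCoord_eq ι c (ι a • x) hx
    refine ⟨a, nonZeroDivisors.ne_zero a.2, ρM σ x' - x', sub_mem_augSub ρM hσ x', ?_⟩
    rw [map_sub, ← embEnd_coord, hx', ← specRep_apply, map_smul, smul_sub]
  | zero =>
    exact ⟨1, one_ne_zero, 0, zero_mem _, by rw [map_zero, smul_zero]⟩
  | add y₁ y₂ _ _ h₁ h₂ =>
    obtain ⟨a₁, ha₁, m₁, hm₁, e₁⟩ := h₁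
    obtain ⟨a₂, ha₂, m₂, hm₂, e₂⟩ := h₂
    refine ⟨a₁ * a₂, mul_ne_zero ha₁ ha₂, a₂ • m₁ + a₁ • m₂,
      add_mem (Submodule.smul_mem _ _ hm₁) (Submodule.smul_mem _ _ hm₂), ?_⟩
    rw [map_add, embCoord_smul, embCoord_smul, e₁, e₂, smul_add, smul_smul, smul_smul, map_mul,
      mul_comm (ι a₂) (ι a₁)]
  | smul r y _ h =>
    obtain ⟨a, ha, m, hm, e⟩ := h
    obtain ⟨s, t, ht, rfl⟩ := IsFractionRing.div_surjective (A := O) r
    have ht0 : t ≠ 0 := nonZeroDivisors.ne_zero ht
    have hιt : ι t ≠ 0 := by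
      intro h0
      apply ht0
      apply IsFractionRing.injective O K
      rw [map_zero]
      exact h0
    refine ⟨t * a, mul_ne_zero ht0 ha, s • m, Submodule.smul_mem _ _ hm, ?_⟩
    have hcalc : ι s * ι a = ι t * ι a * (ι s / ι t) := by
      field_simp
    rw [embCoord_smul, e, smul_smul, smul_smul, map_mul]
    exact congrArg (fun r : K => r • y) hcalc

/-- If `I_aug (M ⊗ K) = M ⊗ K` then `a M ⊆ I_aug M` for some `a ≠ 0`. -/
theorem exists_smul_mem_augSub (I : Set G)
    (h : augSub I (specRep (algebraMap O K) c ρM) = ⊤) :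
    ∃ a : O, a ≠ 0 ∧ ∀ x : M, a • x ∈ augSub I ρM := by
  classical
  set ι : O →+* K := algebraMap O K with hι
  have hιinj : Function.Injective ι := IsFractionRing.injective O K
  have hj : ∀ j : n, ∃ a : O, a ≠ 0 ∧ a • c j ∈ augSub I ρM := by
    intro j
    have hmem : embCoord ι c (c j) ∈ augSub I (specRep ι c ρM) := by
      rw [h]
      exact Submodule.mem_top
    obtain ⟨a, ha, m, hm, e⟩ := exists_embCoord_eq_smul c ρM K I hmem
    refine ⟨a, ha, ?_⟩
    have : m = a • c j := by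
      apply embCoord_injective ι c hιinj
      rw [e, embCoord_smul]
    rw [← this]
    exact hm
  choose a ha0 ha using hj
  refine ⟨∏ j, a j, Finset.prod_ne_zero_iff.mpr fun j _ => ha0 j, fun x => ?_⟩
  rw [← c.sum_repr x, Finset.smul_sum]
  refine Submodule.sum_mem _ fun j _ => ?_
  have e : (∏ i, a i) • c.repr x j • c j
      = (c.repr x j * ∏ i ∈ Finset.univ.erase j, a i) • (a j • c j) := by
    rw [smul_smul, smul_smul, ← Finset.mul_prod_erase Finset.univ a (Finset.mem_univ j)]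
    congr 1
    ring
  rw [e]
  exact Submodule.smul_mem _ _ (ha j)

include b c K in
/-- **Generic part.** -/
theorem ord_identities_of_not_exists (hspan : Submodule.span T (Set.range ρ) = ⊤)
    (hrel : ∀ g : G, ρM g * ρM g - ψ (LinearMap.trace T V (ρ g)) • ρM g
      + ψ (LinearMap.det (ρ g)) • (1 : Module.End O M) = 0)
    (h2 : (2 : O) ≠ 0) (I : Set G)
    (hno : ¬ ∃ a : O, a ≠ 0 ∧ ∀ x : M, a • x ∈ augSub I ρM)
    {σ₀ σ τ : G} (hσ₀ : σ₀ ∈ I) (hσ : σ ∈ I) (hτ : ∀ s ∈ I, τ * s * τ⁻¹ ∈ I) :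
    (ρM σ₀ - ψ (LinearMap.det (ρ σ₀)) • (1 : Module.End O M)) * (ρM σ - 1) = 0 ∧
    (ρM σ₀ - ψ (LinearMap.det (ρ σ₀)) • (1 : Module.End O M)) * ρM τ * (ρM σ₀ - 1) = 0 := by
  classical
  set ι : O →+* K := algebraMap O K with hι
  have hιinj : Function.Injective ι := IsFractionRing.injective O K
  set f : T →+* K := ι.comp ψ with hf
  have h2K : (2 : K) ≠ 0 := by
    intro h0
    apply h2
    apply hιinj
    rw [map_zero, map_ofNat]
    exact h0
  obtain ⟨Ψ, hΨ⟩ := exists_spec_algHom b ρ ψ c ρM ι hspan hrel h2K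
  have hfin2 : Module.finrank K (Fin 2 → K) = 2 := by simp
  have hneM : augSub I (specRep ι c ρM) ≠ ⊤ := fun h => hno (exists_smul_mem_augSub c ρM K I h)
  have hneW : augSub I (specRep f b ρ) ≠ ⊤ := fun h =>
    hneM (augSub_eq_top_of_algHom (specRep f b ρ) (specRep ι c ρM) Ψ hΨ I h)
  have hdet : LinearMap.det (specRep f b ρ σ₀) = ι (ψ (LinearMap.det (ρ σ₀))) := by
    rw [specRep_apply, embEnd_det]
    rfl
  have hinj := embEnd_injective ι c hιinj
  constructor
  · have h := ord_identity_two hfin2 (specRep f b ρ) I hneW hσ₀ hσ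
    have h' := congrArg Ψ h
    rw [map_mul, map_sub, map_sub, map_smul, map_one, hΨ, hΨ, map_zero, hdet] at h'
    apply hinj
    rw [map_zero, map_mul, map_sub, map_sub, embEnd_smul, map_one]
    exact h'
  · have h := ord_identity_three hfin2 (specRep f b ρ) I hneW hσ₀ hτ
    have h' := congrArg Ψ h
    rw [map_mul, map_mul, map_sub, map_sub, map_smul, map_one, hΨ, hΨ, map_zero, hdet] at h'
    apply hinj
    rw [map_zero, map_mul, map_mul, map_sub, map_sub, embEnd_smul, map_one]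
    exact h'

end Generic

section Main

variable {T : Type*} [CommRing T] {G : Type*} [Group G]
  {V : Type*} [AddCommGroup V] [Module T V] (b : Module.Basis (Fin 2) T V)
  (ρ : G →* Module.End T V)
  {O : Type*} [CommRing O] [IsDomain O] [IsLocalRing O] (ψ : T →+* O)
  {M : Type*} [AddCommGroup M] [Module O M] {n : Type*} [Fintype n] [DecidableEq n]
  (c : Module.Basis n O M) (ρM : G →* Module.End O M)

include b c in
/-- **EIG, pure algebra.**  The identities (O2), (O3) on `M` from a residual ordinary line and the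
geometric input `GEO`. -/
theorem ordEig_of_geo [Nonempty n] (hspan : Submodule.span T (Set.range ρ) = ⊤)
    (hrel : ∀ g : G, ρM g * ρM g - ψ (LinearMap.trace T V (ρ g)) • ρM g
      + ψ (LinearMap.det (ρ g)) • (1 : Module.End O M) = 0)
    (h2 : IsUnit (2 : O)) (I : Set G) (l : V →ₗ[T] T) (hl1 : ∃ v, IsUnit (ψ (l v)))
    (hl2 : ∀ σ ∈ I, ∀ v, ψ (l (ρ σ v - v)) ∈ maximalIdeal O)
    (hgeo : ∀ a : O, a ≠ 0 → (∀ x : M, a • x ∈ augSub I ρM) →
      augSub I ρM ⊔ (maximalIdeal O) • (⊤ : Submodule O M) = ⊤)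
    {σ₀ σ τ : G} (hσ₀ : σ₀ ∈ I) (hσ : σ ∈ I) (hτ : ∀ s ∈ I, τ * s * τ⁻¹ ∈ I) :
    (ρM σ₀ - ψ (LinearMap.det (ρ σ₀)) • (1 : Module.End O M)) * (ρM σ - 1) = 0 ∧
    (ρM σ₀ - ψ (LinearMap.det (ρ σ₀)) • (1 : Module.End O M)) * ρM τ * (ρM σ₀ - 1) = 0 := by
  have hres := augSub_sup_ne_top b ρ ψ c ρM hspan hrel h2 I l hl1 hl2
  refine ord_identities_of_not_exists b ρ ψ c ρM (FractionRing O) hspan hrel h2.ne_zero I ?_
    hσ₀ hσ hτ
  rintro ⟨a, ha, hax⟩
  exact hres (hgeo a ha hax)

end Main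

end Fermat.Agent.S33.H692
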