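/-
Row S33 (ordinary at `p ‖ N`), piece EIG, pure algebra: Galois form (helper692).

`ordEig_galois` : for `ρ : GaloisRepAdic T` with `T[G_ℚ] → End_T V` onto and residually ordinary
at `p`, a local point `ψ : T → O'` (`O'` a local domain, `2` a unit), and a nonzero finite free
`O'`-module `M` with Galois action satisfying the quadratic relations of `ρ` along `ψ`
(`S32.RelStatement` shape): if for a place `P | p` with inertia group `I`
    GEO :  `a ≠ 0`, `a M ⊆ I_aug M`  ⟹  `I_aug M + 𝔪 M = M`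
then for all `σ₀, σ ∈ I`, `τ ∈ D_P`, with `d₀ = ψ (det ρ σ₀)`,
    (O2) `(ρM σ₀ - d₀)(ρM σ - 1) = 0`,   (O3) `(ρM σ₀ - d₀) ρM τ (ρM σ₀ - 1) = 0`.
-/
import Mathlib
import Fermat.Prelude.Def_GaloisRep_LocalConditions
import Fermat.Agent.S33.H692.OrdAlg

set_option autoImplicit false

noncomputable section

namespace Fermat.Agent.S33.H692

open Module IsLocalRing TensorProduct

/-- The absolute Galois group of `ℚ`. -/
abbrev GQ : Type := AlgebraicClosure ℚ ≃ₐ[ℚ] AlgebraicClosure ℚ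

/-- The decomposition group normalises the inertia group. -/
theorem conj_mem_inertiaIn {K L : Type*} [Field K] [Field L] [Algebra K L]
    (P : ValuationSubring L) {τ σ : L ≃ₐ[K] L}
    (hτ : τ ∈ P.decompositionSubgroup K) (hσ : σ ∈ P.inertiaSubgroupIn K) :
    τ * σ * τ⁻¹ ∈ P.inertiaSubgroupIn K := by
  obtain ⟨t, ht, rfl⟩ := hσ
  let d : P.decompositionSubgroup K := ⟨τ, hτ⟩
  have hn : (P.inertiaSubgroup K).Normal := MonoidHom.normal_ker _
  exact ⟨d * t * d⁻¹, hn.conj_mem t ht d, rfl⟩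

section Residual

variable {T : Type} [CommRing T] [IsLocalRing T] (ρ : GaloisRepAdic T)

/-- A residual ordinary line gives a functional on `V`, nonzero modulo `𝔪`, which kills
`σ v - v` modulo `𝔪` for all `σ` in the inertia group. -/
theorem exists_functional_of_residual_line (I : Set GQ)
    (L : Submodule (ResidueField T) (ResidueField T ⊗[T] ρ.V))
    (hL : ∃ b : Module.Basis (Fin 2) (ResidueField T) (ResidueField T ⊗[T] ρ.V),
      L = (ResidueField T) ∙ b 0)
    (hI : ∀ σ ∈ I, ∀ v : ResidueField T ⊗[T] ρ.V,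
      (ρ.ρ σ).baseChange (ResidueField T) v - v ∈ L) :
    ∃ l : ρ.V →ₗ[T] T, (∃ v, IsUnit (l v)) ∧
      ∀ σ ∈ I, ∀ v, l (ρ.ρ σ v - v) ∈ maximalIdeal T := by
  obtain ⟨b', rfl⟩ := hL
  -- the functional on the residual space
  let l' : (ResidueField T ⊗[T] ρ.V) →ₗ[ResidueField T] ResidueField T := b'.coord 1
  have hl'L : ∀ x ∈ (ResidueField T) ∙ b' 0, l' x = 0 := by
    intro x hx
    obtain ⟨c, rfl⟩ := Submodule.mem_span_singleton.mp hx
    show b'.coord 1 (c • b' 0) = 0
    rw [map_smul, Module.Basis.coord_apply, Module.Basis.repr_self, Finsupp.single_apply,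
      if_neg (by decide), smul_zero]
  have hl'1 : l' (b' 1) = 1 := by
    show b'.coord 1 (b' 1) = 1
    rw [Module.Basis.coord_apply, Module.Basis.repr_self, Finsupp.single_apply, if_pos rfl]
  let g : ρ.V →ₗ[T] ResidueField T :=
    (l'.restrictScalars T).comp (TensorProduct.mk T (ResidueField T) ρ.V 1)
  have hg : ∀ v, g v = l' ((1 : ResidueField T) ⊗ₜ[T] v) := fun v => rfl
  let f : T →ₗ[T] ResidueField T := Algebra.linearMap T (ResidueField T)
  have hf : ∀ t, f t = residue T t := fun t => rfl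
  have hfsurj : Function.Surjective f := residue_surjective
  obtain ⟨l, hl⟩ := Module.projective_lifting_property f g hfsurj
  have hlv : ∀ v, residue T (l v) = l' ((1 : ResidueField T) ⊗ₜ[T] v) := by
    intro v
    rw [← hg, ← hl]
    rfl
  refine ⟨l, ?_, ?_⟩
  · by_contra hcon
    push Not at hcon
    have h0 : ∀ x : ResidueField T ⊗[T] ρ.V, l' x = 0 := by
      intro x
      induction x using TensorProduct.induction_on with
      | zero => rw [map_zero]
      | tmul c v =>
        have e : c ⊗ₜ[T] v = c • ((1 : ResidueField T) ⊗ₜ[T] v) := by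
          rw [TensorProduct.smul_tmul', smul_eq_mul, mul_one]
        rw [e, map_smul, ← hlv, (residue_eq_zero_iff _).mpr ((mem_maximalIdeal _).mpr (hcon v)),
          smul_zero]
      | add x y hx hy => rw [map_add, hx, hy, add_zero]
    have := h0 (b' 1)
    rw [hl'1] at this
    exact one_ne_zero this
  · intro σ hσ v
    rw [← residue_eq_zero_iff, hlv]
    have h1 := hI σ hσ ((1 : ResidueField T) ⊗ₜ[T] v)
    rw [LinearMap.baseChange_tmul, ← TensorProduct.tmul_sub] at h1
    exact hl'L _ h1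

end Residual

section Main

variable {T : Type} [CommRing T] [IsLocalRing T] (ρ : GaloisRepAdic T)
  {O : Type} [CommRing O] [IsDomain O] [IsLocalRing O] (ψ : T →+* O)
  {M : Type} [AddCommGroup M] [Module O M] [Module.Free O M] [Module.Finite O M] [Nontrivial M]
  (ρM : GQ →* Module.End O M)

/-- **EIG, pure algebra, Galois form.** -/
theorem ordEig_galois (hspan : Submodule.span T (Set.range ρ.ρ) = ⊤) (hψ : IsLocalHom ψ)
    (h2 : IsUnit (2 : O))
    (hrel : ∀ g : GQ, ρM g * ρM g - ψ (ρ.trace g) • ρM g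
      + ψ ((ρ.det g : Tˣ) : T) • (1 : Module.End O M) = 0)
    {p : ℕ} (hres : (GaloisRepAdic.ofResidualGaloisRep ρ.residual).IsOrdinaryAt p)
    (P : ValuationSubring (AlgebraicClosure ℚ)) (hP : P.LiesOverPrime p)
    (hgeo : ∀ a : O, a ≠ 0 →
      (∀ x : M, a • x ∈ augSub (↑(P.inertiaSubgroupIn ℚ) : Set GQ) ρM) →
      augSub (↑(P.inertiaSubgroupIn ℚ) : Set GQ) ρM ⊔
        (maximalIdeal O) • (⊤ : Submodule O M) = ⊤)
    {σ₀ σ τ : GQ} (hσ₀ : σ₀ ∈ P.inertiaSubgroupIn ℚ) (hσ : σ ∈ P.inertiaSubgroupIn ℚ)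
    (hτ : τ ∈ P.decompositionSubgroup ℚ) :
    (ρM σ₀ - ψ ((ρ.det σ₀ : Tˣ) : T) • (1 : Module.End O M)) * (ρM σ - 1) = 0 ∧
    (ρM σ₀ - ψ ((ρ.det σ₀ : Tˣ) : T) • (1 : Module.End O M)) * ρM τ * (ρM σ₀ - 1) = 0 := by
  classical
  obtain ⟨L, hLb, -, hLI⟩ := hres P hP
  obtain ⟨l, ⟨v, hv⟩, hl2⟩ := exists_functional_of_residual_line ρ
    (↑(P.inertiaSubgroupIn ℚ) : Set GQ) L hLb hLI
  let b : Module.Basis (Fin 2) T ρ.V := Module.finBasisOfFinrankEq T ρ.V ρ.finrank_eq
  let c := Module.Free.chooseBasis O M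
  have hne : Nonempty (Module.Free.ChooseBasisIndex O M) := by
    by_contra hne
    rw [not_nonempty_iff] at hne
    obtain ⟨x, y, hxy⟩ := exists_pair_ne M
    apply hxy
    apply c.repr.injective
    ext j
    exact (hne.false j).elim
  exact ordEig_of_geo b ρ.ρ ψ c ρM hspan hrel h2 (↑(P.inertiaSubgroupIn ℚ) : Set GQ) l
    ⟨v, hv.map ψ⟩ (fun s hs w => (mem_maximalIdeal _).mpr (map_nonunit ψ _ (hl2 s hs w)))
    hgeo hσ₀ hσ (fun s hs => conj_mem_inertiaIn P hτ hs)

end Main

end Fermat.Agent.S33.H692
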