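/-
Row S33 (ordinary at `p ‖ N`), leaf ALG (helper692):

    ordEigen_of_geoEigen : GeoEigenStatement → OrdEigenStatement     (Spec2.lean → Spec.lean)

Proof.  Take the eigenmodule `E` of GEO-EIG at the point `P`.  Every `g` satisfies on `E.M` the
characteristic polynomial of `H.ρ g` specialised at `P` (REL, `S32.H692.rel`), `T[G_ℚ] → End V` is
onto (`S31.H202`), the residual representation has an ordinary line, so `ordEig_galois`
(`OrdAlgGal.lean`: Boston–Lenstra–Ribet over the fraction field and over the residue field of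
`P.O`, line lemma) gives the two identities with the constant `P.χ (det ρ σ₀)`.  The determinant
is cyclotomic (`S59.H540`), and a cyclotomic value in `P.O` is unique (Krull), so the constant is
the given `c`.
-/
import Fermat.Agent.S33.Spec2
import Fermat.Agent.S33.H692.OrdAlgGal
import Fermat.Agent.S32.H692.Rel
import Fermat.Agent.S31.H202.TraceRigid
import Fermat.Agent.S59.H540.DetCyc
import Fermat.Agent.S59.H659.Cyclo

set_option autoImplicit false

noncomputable section

namespace Fermat.Agent.S33.H692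

open IsLocalRing

/-- A cyclotomic value in a Noetherian local ring with `p ∈ 𝔪` is unique. -/
theorem isCycVal_unique {p : ℕ} (hp : p ≠ 0) {A : Type} [CommRing A] [IsLocalRing A]
    [IsNoetherianRing A] (hpA : (p : A) ∈ maximalIdeal A)
    {σ : AlgebraicClosure ℚ ≃ₐ[ℚ] AlgebraicClosure ℚ} {c c' : A}
    (hc : Fermat.Agent.S33.IsCycVal p σ c) (hc' : Fermat.Agent.S33.IsCycVal p σ c') : c = c' := by
  have hmem : ∀ n : ℕ, c - c' ∈ maximalIdeal A ^ n := by
    intro n
    obtain ⟨a, ha⟩ := Fermat.Agent.S59.H659.exists_isCycExp (p ^ n) (pow_ne_zero n hp) σ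
    have h1 := hc n a ha
    have h2 := hc' n a ha
    have hle : Ideal.span {((p ^ n : ℕ) : A)} ≤ maximalIdeal A ^ n := by
      rw [Ideal.span_le, Set.singleton_subset_iff, Nat.cast_pow]
      exact Ideal.pow_mem_pow hpA n
    have h3 : c - c' = (c - (a : A)) - (c' - (a : A)) := by ring
    rw [h3]
    exact Ideal.sub_mem _ (hle h1) (hle h2)
  have hbot : (⨅ n, maximalIdeal A ^ n) = ⊥ :=
    Ideal.iInf_pow_eq_bot_of_isLocalRing (maximalIdeal A) Ideal.IsPrime.ne_top'
  have h0 : c - c' ∈ (⨅ n, maximalIdeal A ^ n) := by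
    rw [Ideal.mem_iInf]
    exact hmem
  rw [hbot, Ideal.mem_bot, sub_eq_zero] at h0
  exact h0

/-- In a local ring whose maximal ideal contains an odd prime, `2` is a unit. -/
theorem isUnit_two_of_odd_mem {p : ℕ} (hp : p.Prime) (hp2 : p ≠ 2) {A : Type} [CommRing A]
    [IsLocalRing A] (hpA : (p : A) ∈ maximalIdeal A) : IsUnit (2 : A) := by
  by_contra hnu
  have h2 : (2 : A) ∈ maximalIdeal A := (mem_maximalIdeal _).mpr hnu
  have hodd : Odd p := hp.odd_of_ne_two hp2
  obtain ⟨k, hk⟩ := hodd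
  have h1 : (1 : A) = (p : A) - 2 * (k : A) := by
    rw [hk]
    push_cast
    ring
  have : (1 : A) ∈ maximalIdeal A := by
    rw [h1]
    exact Ideal.sub_mem _ hpA (Ideal.mul_mem_right _ _ h2)
  exact (Ideal.ne_top_iff_one _).mp (maximalIdeal.isMaximal A).ne_top this

/-- **Leaf ALG of row S33.** -/
theorem ordEigen_of_geoEigen (hGeo : Fermat.Agent.S33.GeoEigenStatement) :
    Fermat.Agent.S33.OrdEigenStatement := by
  intro p _ hp2 N _ S hN hNS 𝒪 _ _ _ _ _ _ hp𝒪 θ T _ _ _ _ _ _ _ _ H hres P hloc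
  have hp : p.Prime := Fact.out
  have hpS : p ∈ S := hNS p hp hN.1
  obtain ⟨E, hE⟩ := hGeo p hp2 N S hN hNS P.O P.hp (P.χ.comp H.π)
  refine ⟨E, ?_⟩
  have hspan := Fermat.Agent.S31.H202.span_range_rho_eq_top H.ρ H.residual_absIrr
  have hrel := Fermat.Agent.S32.H692.rel p N S hpS hNS 𝒪 θ T H P hloc E
  have h2u : IsUnit (2 : P.O) := isUnit_two_of_odd_mem hp hp2 P.hp
  -- `p` lies in the maximal ideal of `T`
  have hpT : (p : T) ∈ maximalIdeal T := by
    rw [mem_maximalIdeal, mem_nonunits_iff]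
    intro hu
    have h1 : (p : T) = algebraMap 𝒪 T (p : 𝒪) := by rw [map_natCast]
    rw [h1] at hu
    have h2 : IsUnit (p : 𝒪) := isUnit_of_map_unit (algebraMap 𝒪 T) _ hu
    exact (mem_nonunits_iff.mp ((mem_maximalIdeal _).mp hp𝒪)) h2
  have hdetc : H.ρ.DetIsCyclotomic p :=
    Fermat.Agent.S59.H540.heckeGaloisRepDatum_detIsCyclotomic S H p hpT
  intro Pl hPl σ₀ hσ₀ c hc
  -- the constant
  have hc' : Fermat.Agent.S33.IsCycVal p σ₀ (P.χ ((H.ρ.det σ₀ : Tˣ) : T)) := by
    intro n a ha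
    have h1 := hdetc.2 n σ₀ a ha
    rw [Ideal.mem_span_singleton] at h1 ⊢
    obtain ⟨d, hd⟩ := h1
    refine ⟨P.χ d, ?_⟩
    have e : ((H.ρ.det σ₀ : Tˣ) : T) = LinearMap.det (H.ρ.ρ σ₀) := rfl
    rw [e, ← map_natCast P.χ a, ← map_sub, hd, map_mul, map_natCast]
  have hcc : P.χ ((H.ρ.det σ₀ : Tˣ) : T) = c := isCycVal_unique hp.ne_zero P.hp hc' hc
  have hgeo := hE Pl hPl
  constructor
  · intro σ hσ
    have h := (ordEig_galois H.ρ P.χ E.ρ hspan hloc h2u hrel hres Pl hPl hgeo hσ₀ hσ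
      (τ := 1) (Subgroup.one_mem _)).1
    rw [hcc] at h
    exact h
  · intro τ hτ
    have h := (ordEig_galois H.ρ P.χ E.ρ hspan hloc h2u hrel hres Pl hPl hgeo hσ₀ hσ₀ hτ).2
    rw [hcc] at h
    exact h

end Fermat.Agent.S33.H692
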