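/-
Row S33 (ordinary at `p ‖ N`), leaf OLD in the frozen shape of `S33/Spec2.lean` (helper692):

    oldAugStatement : S33.OldAugStatement                 (UNCONDITIONAL)

= `S33.H706.oldAug_of_s19` (relative connected–étale sequence on the Hopf models) applied to the
landed S19 (`A3.H615.frozenS19`, Hopf-model form `S19.H135.hopfModel_of_frozenShape`), plus the
dictionary between the vocabulary of `Spec2.lean` (`iAug`, `torsSub`, `InSPlus`, natural-number
multiples) and that of `H706/Old.lean` (`augSub`, `augTors`, integer multiples).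
-/
import Fermat.Agent.S33.Spec2
import Fermat.Agent.S33.H706.Old
import Fermat.Agent.S19.H135.Closure
import Fermat.Agent.A3.H615.GrFinal

set_option autoImplicit false

noncomputable section

namespace Fermat.Agent.S33.H692

/-- The frozen S19 in Hopf-model form. -/
theorem s19HopfStatement : Fermat.Agent.S33.H706.S19HopfStatement := by
  intro N _ ℓ _ hℓN k
  exact Fermat.Agent.S19.H135.hopfModel_of_frozenShape N ℓ k
    (Fermat.Agent.A3.H615.frozenS19 N ℓ hℓN k)

/-- **Leaf OLD of row S33**, frozen Spec2 shape. -/
theorem oldAugStatement : Fermat.Agent.S33.OldAugStatement := by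
  intro p M' _ hp hp2 hpM' P hP Y hYG hY
  haveI : Fact p.Prime := ⟨hp⟩
  have hold := Fermat.Agent.S33.H706.oldAug_of_s19 s19HopfStatement p hp2 M' hpM' P hP Y hYG
    (fun y hy => (hY y hy).1) ?_
  · -- `Y = augSub P Y = iAug I Y`
    intro y hy
    have h1 : y ∈ Fermat.Agent.S33.H706.augSub P Y := by
      rw [hold]
      exact hy
    exact h1
  · intro y hy
    obtain ⟨n, hn⟩ := (hY y hy).2
    refine ⟨n, ?_⟩
    have hle : Fermat.Agent.S33.iAug (P.inertiaSubgroupIn ℚ)
        (Fermat.Agent.S33.torsSub (ModularCurve.JZero M') (p ^ n))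
        ≤ Fermat.Agent.S33.H706.augTors p (ModularCurve.JZero M') P n := by
      unfold Fermat.Agent.S33.iAug Fermat.Agent.S33.H706.augTors
      rw [AddSubgroup.closure_le]
      rintro z ⟨σ, hσ, w, hw, rfl⟩
      refine AddSubgroup.subset_closure ⟨σ, hσ, w, ?_, rfl⟩
      have hw' : (p ^ n) • w = 0 := hw
      rw [← Nat.cast_pow, natCast_zsmul]
      exact hw'
    exact hle hn

end Fermat.Agent.S33.H692
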